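import Fermat.Agent.MUL.F4.UC.Bridge
import Fermat.Agent.MUL.S48.W.A1.Slash

section MergeWrap_F4_Cf_Defs -- from F4/Cf/Defs.lean

/-!
# F4 / Cf / Defs : abstract class formations mod `p` (layer ACF of GLOB) — definitions
(FIXED interface, owner helper53; blueprint `NOTES/blueprint-F4-GLOB.md`, v2)

`G` a group with a level structure `𝓤`, `C` a smooth `ℤ[G]`-module (for GLOB: `C = J / E`,
`G = Gal(Qbar/Q)`, `𝓤 = levelsS S`).  Everything is additive, on explicit cochains.

* `Fix C U a`          : `a ∈ C^U`;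
* `cnorm C n σ a`      : `Σ_{i<n} σ^i a`  (the norm of a cyclic layer of degree `n`);
* `IsCyc p U V σ`      : `V ⊴ U` of index `p`, `U = ⊔_{i<p} σ^i V`;
* `IsSmChar 𝓤 χ`       : `χ : G → ZMod p` is a smooth additive character;
* the cyclic 2-cocycle `(g, h) ↦ carry (χ g) (χ h) • a` (`= a ∪ δχ`) is `UC.carryCo C χ a`
  of `F4/UC/Cup.lean`;
* `Infl2 W w`          : the 2-cochain `w` is constant modulo `W` in both variables;
* `H1slack p 𝓤 C`      : `H¹(C)` is torsion prime to `p` (on cocycles);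
* `PCF p 𝓤 C U₀`       : the axioms (all are statements about norm groups of cyclic layers of
                         degree `p`; `U₀` = an open normal subgroup of index prime to `p` below
                         which there are enough characters, for GLOB `U₀ = Gal(Qbar/Q(μ_p))`).

All axioms tolerate prime-to-`p` slack (`C^U` is only known up to prime-to-`p` torsion).
-/

set_option autoImplicit false

open CategoryTheory groupCohomology

namespace Fermat.Agent.F4Cf

open Fermat.Agent.F4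

variable {G : Type} [Group G]

/-- `a` is fixed by `U`. -/
def Fix (C : Rep.{0} ℤ G) (U : Subgroup G) (a : C) : Prop := ∀ g ∈ U, C.ρ g a = a

/-- The cyclic norm `Σ_{i<n} σ^i a`. -/
def cnorm (C : Rep.{0} ℤ G) (n : ℕ) (σ : G) (a : C) : C :=
  ∑ i ∈ Finset.range n, C.ρ (σ ^ i) a

/-- `V` is normal of index `p` in `U`, and `σ` generates `U / V`. -/
structure IsCyc (p : ℕ) (U V : Subgroup G) (σ : G) : Prop where
  le : V ≤ U
  normal : ∀ u ∈ U, ∀ v ∈ V, u * v * u⁻¹ ∈ V
  mem : σ ∈ U
  not_mem : σ ∉ V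
  pow_mem : σ ^ p ∈ V
  gen : ∀ u ∈ U, ∃ i : ℕ, i < p ∧ (σ ^ i)⁻¹ * u ∈ V

/-- `a` is a norm from the cyclic layer `(U, V, σ)`. -/
def IsNormFrom (C : Rep.{0} ℤ G) (p : ℕ) (V : Subgroup G) (σ : G) (a : C) : Prop :=
  ∃ y : C, Fix C V y ∧ a = cnorm C p σ y

/-- `χ : G → ZMod p` is a smooth additive character. -/
def IsSmChar {p : ℕ} (𝓤 : Levels G) (χ : G → ZMod p) : Prop :=
  (∀ g h : G, χ (g * h) = χ g + χ h) ∧ IsLC₁ 𝓤 χ

/-- The kernel of a character, as a subgroup. -/
def charKer {p : ℕ} (χ : G → ZMod p) (hχ : ∀ g h : G, χ (g * h) = χ g + χ h) : Subgroup G where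
  carrier := {g | χ g = 0}
  one_mem' := by
    have h := hχ 1 1
    rw [mul_one] at h
    show χ 1 = 0
    have h2 : χ 1 + 0 = χ 1 + χ 1 := by rw [add_zero]; exact h
    exact (add_left_cancel h2).symm
  mul_mem' := by
    intro a b ha hb
    show χ (a * b) = 0
    rw [hχ, show χ a = 0 from ha, show χ b = 0 from hb, add_zero]
  inv_mem' := by
    intro a ha
    have h1 : χ 1 = 0 := by
      have h := hχ 1 1
      rw [mul_one] at h
      have h2 : χ 1 + 0 = χ 1 + χ 1 := by rw [add_zero]; exact h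
      exact (add_left_cancel h2).symm
    have h := hχ a a⁻¹
    rw [mul_inv_cancel, h1, show χ a = 0 from ha, zero_add] at h
    exact h.symm

/-- The 2-cochain `w` is constant modulo `W` in both variables (for a cocycle and `W` normal:
`w` is inflated from `G / W`). -/
def Infl2 {X : Type*} (W : Subgroup G) (w : G × G → X) : Prop :=
  ∀ g g' v v' : G, v ∈ W → v' ∈ W → w (g * v, g' * v') = w (g, g')

/-- Hilbert 90 up to prime-to-`p` slack: every smooth 1-cocycle has a multiple, prime to `p`,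
which is a coboundary. -/
def H1slack (p : ℕ) (𝓤 : Levels G) (C : Rep.{0} ℤ G) : Prop :=
  ∀ c : G → C, c ∈ Z1 𝓤 C → ∃ m : ℕ, ¬ p ∣ m ∧ (fun g => m • c g) ∈ B1 C

/-- **The axioms of a class formation mod `p`** (with prime-to-`p` slack), in terms of the
norm groups of the cyclic layers of degree `p`.

For GLOB (`C = J / E`): `hasse` = Hasse norm theorem, `first`/`second` = the two inequalities
(`[C_F : N C_M] = p`), `distinct` = Artin reciprocity (distinct layers have distinct norm groups),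
`two` = Kummer theory + `S`-units (`μ_p ⊂ F`), `exist` = the existence theorem for exponent `p`
(`μ_p ⊂ F`). -/
structure PCF (p : ℕ) (𝓤 : Levels G) (C : Rep.{0} ℤ G) (U₀ : Subgroup G) : Prop where
  smooth : IsSmooth 𝓤 C
  open₀ : 𝓤.IsOpen U₀
  normal₀ : U₀.Normal
  index₀ : ¬ p ∣ U₀.index
  /-- `Ĥ⁻¹(U/V, C^V)` has no `p`-torsion (Hasse norm theorem). -/
  hasse : ∀ (U V : Subgroup G) (σ : G), 𝓤.IsOpen V → IsCyc p U V σ →
    ∀ y : C, Fix C V y → cnorm C p σ y = 0 →
      ∃ (m : ℕ) (z : C), ¬ p ∣ m ∧ Fix C V z ∧ m • y = C.ρ σ z - z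
  /-- first inequality: the norm group is proper. -/
  first : ∀ (U V : Subgroup G) (σ : G), 𝓤.IsOpen V → IsCyc p U V σ →
    ∃ a : C, Fix C U a ∧ ¬ IsNormFrom C p V σ a
  /-- second inequality: the norm group has index at most `p`. -/
  second : ∀ (U V : Subgroup G) (σ : G), 𝓤.IsOpen V → IsCyc p U V σ →
    ∀ a b : C, Fix C U a → Fix C U b → ¬ IsNormFrom C p V σ a →
      ∃ k : ℕ, IsNormFrom C p V σ (b - k • a)
  /-- distinct cyclic layers of `U` have distinct norm groups. -/
  distinct : ∀ (U V V' : Subgroup G) (σ σ' : G), 𝓤.IsOpen V → 𝓤.IsOpen V' →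
    IsCyc p U V σ → IsCyc p U V' σ' → V ≠ V' →
      ∃ y : C, Fix C V y ∧ ¬ IsNormFrom C p V' σ' (cnorm C p σ y)
  /-- below `U₀` every open subgroup has two distinct cyclic layers of degree `p`. -/
  two : ∀ U : Subgroup G, 𝓤.IsOpen U → U ≤ U₀ →
    ∃ (V V' : Subgroup G) (σ σ' : G), 𝓤.IsOpen V ∧ 𝓤.IsOpen V' ∧
      IsCyc p U V σ ∧ IsCyc p U V' σ' ∧ V ≠ V'
  /-- existence theorem for exponent `p` below `U₀`: a universal norm of the cyclic layers of
  degree `p` is a `p`-th multiple, up to prime-to-`p` slack. -/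
  exist : ∀ U : Subgroup G, 𝓤.IsOpen U → U ≤ U₀ → ∀ a : C, Fix C U a →
    (∀ (V : Subgroup G) (σ : G), 𝓤.IsOpen V → IsCyc p U V σ → IsNormFrom C p V σ a) →
      ∃ (m : ℕ) (b : C), ¬ p ∣ m ∧ Fix C U b ∧ m • a = p • b

end Fermat.Agent.F4Cf
end MergeWrap_F4_Cf_Defs
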